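/-
S55 / 43b-CAPIT (helper72), adapter: `p`-capitulation in the vocabulary of helper44's additive
valuation `IdeleVal44.valAdd` on `(PadicAlgCl q)ˣ` (`v(q) = 1`).

* `norm_eq_zpow_iff_valAdd` : `‖u‖ = q ^ (-m) ↔ valAdd q u = m`;
* `exists_level_root_pow_of_valAdd` : capitulation with the hypothesis "the valuation of
  `ι_q (σ α)` is `p ^ k * n`, `n ∈ ℤ`, for all `q ∉ S`, `σ ∈ G_ℚ`";
* `valAdd_root` : the valuation of the root is `n`.
-/
import Fermat.Agent.S55.Capit72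
import Fermat.Agent.S55.IdeleVal44.Val

set_option autoImplicit false
set_option linter.style.haveILetI false

noncomputable section

namespace Fermat.Agent.S55.Capit72

open Fermat.Agent.S55.IdeleVal44

section Local

variable (q : ℕ) [Fact q.Prime]

/-- `‖u‖ = q ^ (-m) ↔ v(u) = m`. -/
theorem norm_eq_zpow_iff_valAdd (u : (PadicAlgCl q)ˣ) (m : ℤ) :
    ‖(u : PadicAlgCl q)‖ = (q : ℝ) ^ (-m) ↔ valAdd q (Additive.ofMul u) = m := by
  have hlog : 0 < Real.log (q : ℝ) := log_q_pos q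
  have hq0 : (0 : ℝ) < q := by exact_mod_cast (Fact.out : q.Prime).pos
  have hu : 0 < ‖(u : PadicAlgCl q)‖ := norm_pos_iff.mpr (Units.ne_zero u)
  rw [valAdd_apply, toMul_ofMul]
  constructor
  · intro h
    rw [h, Real.log_zpow]
    push_cast
    field_simp
  · intro h
    have h1 : Real.log ‖(u : PadicAlgCl q)‖ = Real.log ((q : ℝ) ^ (-m)) := by
      rw [Real.log_zpow]
      push_cast
      have := h
      field_simp at this
      linarith
    exact Real.log_injOn_pos (Set.mem_Ioi.mpr hu) (Set.mem_Ioi.mpr (zpow_pos hq0 _)) h1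

end Local

variable {S : Finset Nat.Primes} {p : ℕ} [Fact p.Prime]

/-- the unit `ι_q (σ α)` of `PadicAlgCl q` attached to `α ≠ 0` in `ℚ̄` and `σ ∈ G_ℚ`. -/
def locUnit (q : ℕ) [Fact q.Prime] (σ : GQ) {α : Qb} (hα0 : α ≠ 0) : (PadicAlgCl q)ˣ :=
  Units.mk0 (padicEmbedding q (σ α)) ((map_ne_zero _).mpr ((map_ne_zero _).mpr hα0))

@[simp] theorem coe_locUnit (q : ℕ) [Fact q.Prime] (σ : GQ) {α : Qb} (hα0 : α ≠ 0) :
    ((locUnit q σ hα0 : (PadicAlgCl q)ˣ) : PadicAlgCl q) = padicEmbedding q (σ α) := rfl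

/-- **`p`-capitulation, `valAdd` form.** -/
theorem exists_level_root_pow_of_valAdd (hpS : ExtCitation.pPrime p ∈ S)
    {F : IntermediateField ℚ Qb} (hF : F.IsUnramifiedOutside S) (k : ℕ) {α : Qb} (hαF : α ∈ F)
    (hα0 : α ≠ 0)
    (hval : ∀ (q : ℕ) [Fact q.Prime], (⟨q, Fact.out⟩ : Nat.Primes) ∉ S → ∀ σ : GQ,
      ∃ n : ℤ, valAdd q (Additive.ofMul (locUnit q σ hα0)) = ((p ^ k : ℕ) : ℤ) * n) :
    ∃ F' : IntermediateField ℚ Qb, F ≤ F' ∧ F'.IsUnramifiedOutside S ∧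
      F'.fixingSubgroup.Normal ∧ ∃ β : Qb, β ∈ F' ∧ β ^ (p ^ k) = α := by
  refine exists_level_root_pow_of_norm hpS hF k hαF hα0 ?_
  intro q _ hq σ
  obtain ⟨n, hn⟩ := hval q hq σ
  refine ⟨n, ?_⟩
  have := (norm_eq_zpow_iff_valAdd q (locUnit q σ hα0) (((p ^ k : ℕ) : ℤ) * n)).mpr
    (by exact_mod_cast hn)
  rw [coe_locUnit] at this
  rw [this, neg_mul]

/-- the valuation of a `p ^ k`-th root. -/
theorem valAdd_root (q : ℕ) [Fact q.Prime] (k : ℕ) {α β : Qb} (hβ : β ^ (p ^ k) = α)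
    (hα0 : α ≠ 0) (hβ0 : β ≠ 0) (σ : GQ) (n : ℤ)
    (h : valAdd q (Additive.ofMul (locUnit q σ hα0)) = ((p ^ k : ℕ) : ℤ) * n) :
    valAdd q (Additive.ofMul (locUnit q σ hβ0)) = n := by
  rw [← norm_eq_zpow_iff_valAdd, coe_locUnit]
  refine norm_root q k hβ σ n ?_
  have := (norm_eq_zpow_iff_valAdd q (locUnit q σ hα0) (((p ^ k : ℕ) : ℤ) * n)).mpr
    (by exact_mod_cast h)
  rw [coe_locUnit] at this
  rw [this, neg_mul]

end Fermat.Agent.S55.Capit72
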